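import Fermat.Agent.S01
import Mathlib.NumberTheory.FLT.Basic

/-!
# Fermat's Last Theorem in the forms of Mathlib

`Fermat.Agent.S01.result` gives Mathlib's `FermatLastTheorem`, hence the statement over `ℤ` and
over `ℚ`.
-/

set_option autoImplicit false

namespace Fermat.Agent.FLT

/-- **Fermat's Last Theorem**, in Mathlib's formulation. -/
theorem fermatLastTheorem : FermatLastTheorem := fun n hn a b c ha hb hc =>
  S01.result n hn a b c (Nat.pos_of_ne_zero ha) (Nat.pos_of_ne_zero hb) (Nat.pos_of_ne_zero hc)

/-- Fermat's Last Theorem over the integers. -/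
theorem fermatLastTheoremWith_int (n : ℕ) (hn : 3 ≤ n) : FermatLastTheoremWith ℤ n :=
  fermatLastTheoremFor_iff_int.1 (fermatLastTheorem n hn)

/-- Fermat's Last Theorem over the rationals. -/
theorem fermatLastTheoremWith_rat (n : ℕ) (hn : 3 ≤ n) : FermatLastTheoremWith ℚ n :=
  fermatLastTheoremFor_iff_rat.1 (fermatLastTheorem n hn)

end Fermat.Agent.FLT
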