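-- Statement S44 (milestone row 38): `FreyPackage.level_lowering_at_p_of_conductorLevel`.
import Fermat.Statements.S44
import Fermat.Agent.RT.Frey.Descent

set_option autoImplicit false
open WeierstrassCurve WeierstrassCurve.Affine WeierstrassCurve.Affine.Point
open CuspForm ModularFormClass UpperHalfPlane
open FreyPackage

namespace Fermat.Agent.S44

theorem result (P : FreyPackage) {N : ℕ} (hcond : P.IsConductorLevel N) (hpN : P.p ∣ N) (hirr : GaloisRepIsIrreducible (K := AlgebraicClosure ℚ) ℚ P.freyCurve P.p) (hmod : P.ModularRepOfLevel N) : ∃ M : ℕ, M ∣ N ∧ ¬ P.p ∣ M ∧ P.ModularRepOfLevel M := by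
  obtain ⟨M, hMN, h2, hM⟩ := Fermat.Agent.RT.Frey.exists_level_no_odd P hcond hirr hmod
  exact ⟨M, hMN, fun h => (Nat.lt_of_lt_of_le (by norm_num) P.hp5 : 2 < P.p).ne' (h2 P.p P.pp h), hM⟩

end Fermat.Agent.S44
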