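-- Statement S03 (milestone row 3): `FreyPackage.no_frey_package`.
import Fermat.Statements.S03
import Fermat.Agent.RT.Two.Final

set_option autoImplicit false
open FreyPackage

namespace Fermat.Agent.S03

theorem result (P : FreyPackage) : False := by
  exact Fermat.Agent.RT.Two.no_frey P (Fermat.Agent.RT.Two.freyExact P)

end Fermat.Agent.S03
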