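-- Statement S06 (milestone row 6): `FreyPackage.modularRepOfConductorLevel`.
import Fermat.Statements.S06
import Fermat.Agent.RT.Two.Final

set_option autoImplicit false
open WeierstrassCurve WeierstrassCurve.Affine WeierstrassCurve.Affine.Point
open CuspForm ModularFormClass UpperHalfPlane
open FreyPackage

namespace Fermat.Agent.S06

theorem result (P : FreyPackage) : ∃ N : ℕ, P.IsConductorLevel N ∧ P.ModularRepOfLevel N := by
  exact Fermat.Agent.RT.Two.exists_conductorLevel P (Fermat.Agent.RT.Two.freyExact P)

end Fermat.Agent.S06
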