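-- Statement S12 (milestone row 11): `FreyPackage.frey_no_cofixed_large`.
import Fermat.Statements.S12
import Fermat.Agent.Mazur.Eisenstein.Final
import Fermat.Agent.FiniteFlat.TorsionInjective
import Fermat.Agent.FiniteFlat.TorsionOrder

set_option autoImplicit false
open WeierstrassCurve WeierstrassCurve.Affine WeierstrassCurve.Affine.Point
open CuspForm ModularFormClass UpperHalfPlane
open FreyPackage

namespace Fermat.Agent.S12

theorem result (P : FreyPackage) (hp : 17 ≤ P.p) : ¬ HasGaloisStableCofixedLine (K := AlgebraicClosure ℚ) ℚ P.freyCurve P.p := by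
  exact Fermat.Agent.Mazur.Large.not_hasGaloisStableCofixedLine
    (Fermat.Agent.Mazur.Eisenstein.threePlaceLemma_of_inputs
      (fun p _ _ => Fermat.Agent.FiniteFlat.injectiveOnTorsion_of_lattice p)
      (fun p _ _ => Fermat.Agent.FiniteFlat.orderProperty p)) P hp

end Fermat.Agent.S12
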