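-- Statement S33 (milestone row 32): `CuspForm.HeckeGaloisRepDatum.isOrdinaryAt_of_primeFactors_subset`.
import Fermat.Statements.S33
import Fermat.Agent.OrdinaryAtP.Final
import Fermat.Agent.GaloisReps.OfInjective
import Fermat.Agent.FiniteFlat.TorsionInjective
import Fermat.Agent.FiniteFlat.TorsionOrder
-- import your own Fermat.Agent.* helpers here

set_option autoImplicit false
variable {p : ℕ} {N : ℕ} [NeZero N] {S : Finset ℕ}
  {𝒪 : Type} [CommRing 𝒪] [IsDomain 𝒪] [IsDiscreteValuationRing 𝒪]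
  [IsAdicComplete (IsLocalRing.maximalIdeal 𝒪) 𝒪]
  {θ : CuspForm.heckeAlgebra N 2 (↑S : Set ℕ) →+* IsLocalRing.ResidueField 𝒪}
  {T : Type} [CommRing T] [IsLocalRing T] [IsNoetherianRing T]
  [IsAdicComplete (IsLocalRing.maximalIdeal T) T] [Algebra 𝒪 T] [IsLocalHom (algebraMap 𝒪 T)]
  [Module.Finite 𝒪 T] [Module.Free 𝒪 T]
open CuspForm CuspForm.HeckeGaloisRepDatum

namespace Fermat.Agent.S33

theorem result
    [Finite (IsLocalRing.ResidueField 𝒪)] [CharZero 𝒪]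
    (hp : p.Prime) (hp2 : p ≠ 2) (hp𝒪 : (p : 𝒪) ∈ IsLocalRing.maximalIdeal 𝒪) (hN : p ∣ N ∧ ¬ p ^ 2 ∣ N)
    (hNS : ∀ q : ℕ, q.Prime → q ∣ N → q ∈ S)
    (H : CuspForm.HeckeGaloisRepDatum N (↑S : Set ℕ) 𝒪 θ T)
    (hres : (GaloisRepAdic.ofResidualGaloisRep H.ρ.residual).IsOrdinaryAt p) :
    H.ρ.IsOrdinaryAt p := by
  have := Fact.mk hp
  exact Fermat.Agent.OrdinaryAtP.isOrdinaryAt_of_orders hp2
    (Fermat.Agent.GaloisReps.congruenceProperty_all
      fun N _ => Fermat.Agent.FiniteFlat.injectiveOnTorsion_of_lattice N)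
    (fun M _ => Fermat.Agent.FiniteFlat.orderProperty M) hN hp𝒪 H hres

end Fermat.Agent.S33
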