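-- Statement S45 (milestone row 41): `FreyPackage.level_lowering_to_two`.
import Fermat.Statements.S45
import Fermat.Agent.RT.Two.Final

set_option autoImplicit false
open WeierstrassCurve WeierstrassCurve.Affine WeierstrassCurve.Affine.Point
open CuspForm ModularFormClass UpperHalfPlane
open FreyPackage

namespace Fermat.Agent.S45

theorem result (P : FreyPackage) (hmod : P.freyCurve.IsModular) (hirr : GaloisRepIsIrreducible (K := AlgebraicClosure ℚ) ℚ P.freyCurve P.p) : ∃ f : CuspForm (CongruenceSubgroup.Gamma0 2) 2, f ≠ 0 := by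
  exact Fermat.Agent.RT.Frey.exists_form_two
    (fun P _ _ h1 h2 h3 h4 h5 h6 h7 h8 => Fermat.Agent.S43.result P h1 h2 h3 h4 h5 h6 h7 h8)
    (fun P _ h1 h2 h3 h4 => Fermat.Agent.S44.result P h1 h2 h3 h4) P hirr
    (Fermat.Agent.RT.Two.exists_conductorLevel P (Fermat.Agent.RT.Two.freyExact P))

end Fermat.Agent.S45
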