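-- Statement S50 (milestone row 42): `WeierstrassCurve.isResiduallyModular_three_and_noInertiaFixedTorsion_and_not_cube_dvd_of_isSemistableModel`.
import Fermat.Statements.S50
import Fermat.Agent.RT.Semistable.Main

set_option autoImplicit false
set_option autoImplicit false
open WeierstrassCurve WeierstrassCurve.Affine WeierstrassCurve.Affine.Point
open scoped WeierstrassCurve.Affine
open WeierstrassCurve

namespace Fermat.Agent.S50

theorem result
    (W : WeierstrassCurve ℤ) (hΔ : W.Δ ≠ 0) (hW : W.IsSemistableModel)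
    (h3 : W.ModRepIsIrreducible 3) :
    ∃ M : ℕ, 0 < M ∧ W.IsResiduallyModularOfLevel 3 M ∧
      (∀ q : ℕ, q.Prime → q ≠ 3 → ¬ q ^ 3 ∣ M) ∧
      (3 ^ 2 ∣ M →
        ∀ A : ValuationSubring (AlgebraicClosure ℚ), A.LiesOverPrime 3 →
          ∀ x : Submodule.torsionBy ℤ
              ((W.map (Int.castRingHom ℚ))⁄(AlgebraicClosure ℚ)).Point (3 : ℕ),
            (∀ σ ∈ A.inertiaSubgroupIn ℚ, σ • x = x) → x = 0) := by
  obtain ⟨M, hM, hsq, hres⟩ := Fermat.Agent.RT.Semistable.residuallyModular_three W hW hΔ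
  exact ⟨M, hM, hres,
    fun q hq _ h => hq.not_isUnit (hsq q ((by rw [← sq]; exact pow_dvd_pow q (by norm_num) : q * q ∣ q ^ 3).trans h)),
    fun h => absurd (hsq 3 (by rwa [← sq])) Nat.prime_three.not_isUnit⟩

end Fermat.Agent.S50
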