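-- Statement S59 (milestone row 53): `WeierstrassCurve.modularityLiftingAtConductor_threeFive_of_level_of_not_sq_dvd_of_not_cube_dvd`.
import Fermat.Statements.S59
import Fermat.Agent.RT.Lift59.LiftMain
import Fermat.Agent.RT.Lift59.AtP.Main
import Fermat.Agent.RT.Lift59.Scalar.Strict
import Fermat.Agent.RT.Lift59.Squarefree
import Fermat.Agent.RT.Lift59.Square.Main

set_option autoImplicit false
set_option autoImplicit false
open scoped WeierstrassCurve.Affine
open WeierstrassCurve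

namespace Fermat.Agent.S59

theorem result (p : ℕ) (hp : p = 3 ∨ p = 5)
    (W : WeierstrassCurve ℤ) (hΔ : W.Δ ≠ 0) (hW : W.IsSemistableModel) (hirr : W.ModRepIsIrreducible p)
    (M₀ : ℕ) [NeZero M₀] (hres₀ : W.IsResiduallyModularOfLevel p M₀)
    (hM₀ : ¬ p ^ 2 ∣ M₀)
    (hM₀3 : ∀ q : ℕ, q.Prime → q ≠ p → ¬ q ^ 3 ∣ M₀) :
    Mlc1IsModularModelOfExactConductorLevel W := by
  exact Fermat.Agent.RT.Lift59.liftingInput Fermat.Agent.RT.Lift59.Square.squareInput
    Fermat.Agent.RT.Lift59.MazurQ.mazurInput Fermat.Agent.RT.Lift59.AtP.atPInput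
    Fermat.Agent.RT.Lift59.Scalar.scalarInput Fermat.Agent.RT.Lift59.liftInput
    Fermat.Agent.RT.Lift59.conductorInput p hp W hΔ hW hirr M₀ hres₀ hM₀ hM₀3

end Fermat.Agent.S59
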